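import Mathlib

/-! Splitting of a norm after a base change of the shape `1 + ℓ` (helper88). -/

set_option autoImplicit false

noncomputable section

open scoped TensorProduct

namespace Fermat.Agent.TEll

section

variable {E E' Ω R : Type*} [Field E] [Field E'] [Field Ω] [Field R] [Algebra E E'] [Algebra E Ω]
  [Algebra Ω R] [FiniteDimensional E E'] [FiniteDimensional Ω R]

theorem norm_prod_mk (a : Ω) (b : R) :
    Algebra.norm Ω ((a, b) : Ω × R) = a * Algebra.norm Ω b := by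
  have h : Algebra.lmul Ω (Ω × R) (a, b) = (Algebra.lmul Ω Ω a).prodMap (Algebra.lmul Ω R b) := by
    ext x <;> simp
  rw [Algebra.norm_apply, h, LinearMap.det_prodMap, ← Algebra.norm_apply, ← Algebra.norm_apply,
    Algebra.norm_self]
  rfl

theorem norm_split (ι₁ : E' →+* Ω) (h₁ : ∀ e, ι₁ (algebraMap E E' e) = algebraMap E Ω e)
    (ι₂ : E' →+* R) (h₂ : ∀ e, ι₂ (algebraMap E E' e) = algebraMap Ω R (algebraMap E Ω e))
    (hℓ : (Module.finrank Ω R).Prime) (hdeg : Module.finrank E E' = Module.finrank Ω R + 1)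
    (x₀ : E') (hx₀ : ι₂ x₀ ∉ (algebraMap Ω R).range) (x : E') :
    algebraMap E Ω (Algebra.norm E x) = ι₁ x * Algebra.norm Ω (ι₂ x) := by
  let _ : Algebra E R := ((algebraMap Ω R).comp (algebraMap E Ω)).toAlgebra
  have : IsScalarTower E Ω R := IsScalarTower.of_algebraMap_eq fun _ => rfl
  let I₁ : E' →ₐ[E] Ω := { ι₁ with commutes' := h₁ }
  let I₂ : E' →ₐ[E] R := { ι₂ with commutes' := h₂ }
  let Φ₁ : Ω ⊗[E] E' →ₐ[Ω] Ω := Algebra.TensorProduct.lift (Algebra.ofId Ω Ω) I₁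
    (fun _ _ => mul_comm _ _)
  let Φ₂ : Ω ⊗[E] E' →ₐ[Ω] R := Algebra.TensorProduct.lift (Algebra.ofId Ω R) I₂
    (fun _ _ => mul_comm _ _)
  have hΦ₁ : ∀ (c : Ω) (y : E'), Φ₁ (c ⊗ₜ y) = c * ι₁ y := fun c y =>
    Algebra.TensorProduct.lift_tmul (Algebra.ofId Ω Ω) I₁ (fun _ _ => mul_comm _ _) c y
  have hΦ₂ : ∀ (c : Ω) (y : E'), Φ₂ (c ⊗ₜ y) = algebraMap Ω R c * ι₂ y := fun c y =>
    Algebra.TensorProduct.lift_tmul (Algebra.ofId Ω R) I₂ (fun _ _ => mul_comm _ _) c y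
  -- surjectivity of the second map
  have hsurj₂ : Function.Surjective Φ₂ := by
    have hs := (Subalgebra.isSimpleOrder_of_finrank_prime Ω R hℓ).eq_bot_or_eq_top Φ₂.range
    rcases hs with hs | hs
    · exfalso
      apply hx₀
      have : Φ₂ (1 ⊗ₜ x₀) ∈ Φ₂.range := ⟨_, rfl⟩
      rw [hs, hΦ₂, map_one, one_mul] at this
      obtain ⟨c, hc⟩ := Algebra.mem_bot.mp this
      exact ⟨c, hc⟩
    · intro r
      have : r ∈ Φ₂.range := hs ▸ Algebra.mem_top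
      exact this
  -- an element killed by `Φ₁` but not by `Φ₂`
  obtain ⟨t, ht₁, ht₂⟩ : ∃ t, Φ₁ t = 0 ∧ Φ₂ t ≠ 0 := by
    refine ⟨1 ⊗ₜ x₀ - (ι₁ x₀) ⊗ₜ 1, ?_, ?_⟩
    · rw [map_sub, hΦ₁, hΦ₁]
      simp
    · rw [map_sub, hΦ₂, hΦ₂, map_one, one_mul, map_one, mul_one, sub_ne_zero]
      intro h
      exact hx₀ ⟨_, h.symm⟩
  let Φ : Ω ⊗[E] E' →ₐ[Ω] Ω × R := Φ₁.prod Φ₂
  have hΦ : ∀ z, Φ z = (Φ₁ z, Φ₂ z) := fun _ => rfl
  have hsurj : Function.Surjective Φ := by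
    rintro ⟨a, b⟩
    obtain ⟨s, hs⟩ := hsurj₂ ((Φ₂ t)⁻¹ * (b - algebraMap Ω R a))
    refine ⟨a ⊗ₜ 1 + t * s, ?_⟩
    rw [hΦ, map_add, map_mul, ht₁, zero_mul, add_zero, map_add, map_mul, hs, hΦ₁, hΦ₂, map_one,
      map_one, mul_one, mul_one, mul_inv_cancel_left₀ ht₂]
    simp
  have hfin : Module.finrank Ω (Ω ⊗[E] E') = Module.finrank Ω (Ω × R) := by
    rw [Module.finrank_baseChange, hdeg, Module.finrank_prod, Module.finrank_self]
    ring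
  have hinj : Function.Injective Φ :=
    (LinearMap.injective_iff_surjective_of_finrank_eq_finrank (f := Φ.toLinearMap) hfin).mpr hsurj
  let e : Ω ⊗[E] E' ≃ₐ[Ω] Ω × R := AlgEquiv.ofBijective Φ ⟨hinj, hsurj⟩
  have h3 : Algebra.norm Ω (e (1 ⊗ₜ x)) = Algebra.norm Ω ((1 : Ω) ⊗ₜ[E] x) :=
    Algebra.norm_eq_of_algEquiv e _
  have h4 : Algebra.norm Ω ((1 : Ω) ⊗ₜ[E] x) = algebraMap E Ω (Algebra.norm E x) := by
    rw [Algebra.norm_apply, Algebra.norm_apply, ← LinearMap.det_baseChange]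
    congr 1
    ext y
    simp
  have h5 : e (1 ⊗ₜ x) = (ι₁ x, ι₂ x) := by
    show Φ (1 ⊗ₜ x) = _
    rw [hΦ, hΦ₁, hΦ₂, one_mul, map_one, one_mul]
  rw [← h4, ← h3, h5, norm_prod_mk]

end

end Fermat.Agent.TEll
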