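import Mathlib
import Fermat.Prelude.Def_AlgebraicCurve_Correspondence
import Fermat.Agent.TEll.NormSplit

/-! The norm along a field homomorphism, correspondences on principal divisors (helper88). -/

set_option autoImplicit false
set_option linter.style.haveILetI false

noncomputable section

open AlgebraicCurve

namespace Fermat.Agent.TEll

section

variable {K F F' : Type*} [Field K] [Field F] [Field F'] [Algebra K F] [Algebra K F']

/-- the norm of `F'` over `φ F`. -/
def normAlong (φ : F →ₐ[K] F') : F' →* F :=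
  letI := algebraAlong φ
  Algebra.norm F

theorem normAlong_ne_zero (φ : F →ₐ[K] F') (hfin : FiniteAlong K φ) {f : F'} (hf : f ≠ 0) :
    normAlong φ f ≠ 0 := by
  letI := algebraAlong φ
  haveI : Module.Finite F F' := hfin
  show Algebra.norm F f ≠ 0
  rw [Algebra.norm_ne_zero_iff]
  exact hf

theorem normAlong_algebraMap (φ : F →ₐ[K] F') (f : F) :
    normAlong φ (φ f) = f ^ finrankAlong K φ := by
  letI := algebraAlong φ
  exact Algebra.norm_algebraMap (R := F) (S := F') f

theorem normAlong_split {Ω R : Type*} [Field Ω] [Field R] [Algebra Ω R] [FiniteDimensional Ω R]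
    (φ : F →ₐ[K] F') (ι : F →+* Ω) (ι₁ : F' →+* Ω) (h₁ : ∀ e, ι₁ (φ e) = ι e)
    (ι₂ : F' →+* R) (h₂ : ∀ e, ι₂ (φ e) = algebraMap Ω R (ι e))
    (hℓ : (Module.finrank Ω R).Prime) (hdeg : finrankAlong K φ = Module.finrank Ω R + 1)
    (x₀ : F') (hx₀ : ι₂ x₀ ∉ (algebraMap Ω R).range) (x : F') :
    ι (normAlong φ x) = ι₁ x * Algebra.norm Ω (ι₂ x) := by
  letI := algebraAlong φ
  letI : Algebra F Ω := ι.toAlgebra
  have hdeg' : Module.finrank F F' = Module.finrank Ω R + 1 := hdeg
  haveI : FiniteDimensional F F' := Module.finite_of_finrank_pos (by omega)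
  exact norm_split (E := F) (E' := F') (Ω := Ω) (R := R) ι₁ h₁ ι₂ h₂ hℓ hdeg' x₀ hx₀ x

theorem pullbackAlong_eq_ord [HasPrincipalDivisors K F'] (ψ : F →ₐ[K] F')
    (hψ : ψ.toRingHom.IsIntegral) {f : F} {D : Divisor K F} (hD : ∀ v, D v = v.ord f)
    (w : Place K F') : Divisor.pullbackAlong ψ hψ D w = w.ord (ψ f) := by
  letI := algebraAlong ψ
  haveI := isScalarTower_along ψ
  haveI := isIntegral_along ψ hψ
  exact Divisor.pullback_apply_eq_ord hD w

theorem pushforwardAlong_eq_ord (φ : F →ₐ[K] F') (hφ : φ.toRingHom.IsIntegral)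
    (hfin : FiniteAlong K φ) (hN : NormFormulaAlong K φ hfin)
    {g : F'} (hg : g ≠ 0) {D : Divisor K F'} (hD : ∀ w, D w = w.ord g) (v : Place K F) :
    Divisor.pushforwardAlong φ hφ D v = v.ord (normAlong φ g) :=
  hN g hg D hD v

theorem correspondence_eq_ord [HasPrincipalDivisors K F'] (φ ψ : F →ₐ[K] F')
    (hφ : φ.toRingHom.IsIntegral) (hψ : ψ.toRingHom.IsIntegral)
    (hfin : FiniteAlong K φ) (hN : NormFormulaAlong K φ hfin)
    {f : F} (hf : f ≠ 0) {D : Divisor K F} (hD : ∀ v, D v = v.ord f) (v : Place K F) :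
    Divisor.correspondence ψ φ hψ hφ D v = v.ord (normAlong φ (ψ f)) := by
  have hψf : ψ f ≠ 0 := (map_ne_zero_iff (ψ : F →+* F') (RingHom.injective _)).mpr hf
  exact pushforwardAlong_eq_ord φ hφ hfin hN hψf (pullbackAlong_eq_ord ψ hψ hD) v

end

end Fermat.Agent.TEll
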