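import Mathlib
import Fermat.Prelude.Def_AlgebraicCurve_Correspondence

/-! Degrees along a homomorphism of function fields (helper88). -/

set_option autoImplicit false

noncomputable section

open AlgebraicCurve IntermediateField

namespace Fermat.Agent.TEll

variable {K F F' : Type*} [Field K] [Field F] [Field F'] [Algebra K F] [Algebra K F']

theorem finrank_mul_finrankAlong (φ : F →ₐ[K] F') (x : F) :
    Module.finrank K⟮x⟯ F * finrankAlong K φ = Module.finrank K⟮φ x⟯ F' := by
  let _ := algebraAlong φ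
  have := isScalarTower_along φ
  have h1 : K⟮x⟯.map φ = K⟮φ x⟯ := by
    rw [IntermediateField.adjoin_map, Set.image_singleton]
  let e : K⟮x⟯ ≃ₐ[K] K⟮φ x⟯ :=
    (IntermediateField.equivMap K⟮x⟯ φ).trans (IntermediateField.equivOfEq h1)
  have h2 : Module.finrank K⟮x⟯ F' = Module.finrank K⟮φ x⟯ F' := by
    refine Algebra.finrank_eq_of_equiv_equiv e.toRingEquiv (RingEquiv.refl F') ?_
    ext z
    rfl
  rw [← h2]
  exact Module.finrank_mul_finrank K⟮x⟯ F F'

theorem finrankAlong_comp {F'' : Type*} [Field F''] [Algebra K F''] (φ : F →ₐ[K] F')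
    (ψ : F' ≃ₐ[K] F'') :
    finrankAlong K ((ψ : F' →ₐ[K] F'').comp φ) = finrankAlong K φ := by
  let _ : Algebra F F' := algebraAlong φ
  let _ : Algebra F F'' := algebraAlong ((ψ : F' →ₐ[K] F'').comp φ)
  show Module.finrank F F'' = Module.finrank F F'
  symm
  refine Algebra.finrank_eq_of_equiv_equiv (RingEquiv.refl F) ψ.toRingEquiv ?_
  ext z
  rfl

end Fermat.Agent.TEll
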