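import Mathlib

/-! Homomorphisms out of `adjoin L (range x)` from kernels of evaluations (helper88). -/

set_option autoImplicit false

noncomputable section

namespace Fermat.Agent.TEll

open IntermediateField
open scoped algebraAdjoinAdjoin

theorem exists_algHom_adjoin {L E E' I : Type*} [Field L] [Field E] [Field E'] [Algebra L E]
    [Algebra L E'] (x : I → E) (y : I → E')
    (h : ∀ P : MvPolynomial I L, MvPolynomial.aeval x P = 0 ↔ MvPolynomial.aeval y P = 0) :
    ∃ w : adjoin L (Set.range x) →ₐ[L] E',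
      ∀ i, w ⟨x i, subset_adjoin _ _ ⟨i, rfl⟩⟩ = y i := by
  classical
  let f : MvPolynomial I L →ₐ[L] Algebra.adjoin L (Set.range x) :=
    MvPolynomial.aeval fun i => ⟨x i, Algebra.subset_adjoin ⟨i, rfl⟩⟩
  have hf : ∀ P, ((f P : Algebra.adjoin L (Set.range x)) : E) = MvPolynomial.aeval x P := by
    intro P
    have : (Algebra.adjoin L (Set.range x)).val.comp f = MvPolynomial.aeval x := by
      apply MvPolynomial.algHom_ext
      intro i
      simp [f]
    exact congrArg (fun g : MvPolynomial I L →ₐ[L] E => g P) this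
  have hsurj : Function.Surjective f := by
    rintro ⟨z, hz⟩
    rw [Algebra.adjoin_range_eq_range_aeval] at hz
    obtain ⟨P, hP⟩ := hz
    exact ⟨P, Subtype.ext ((hf P).trans hP)⟩
  have hker : RingHom.ker f ≤ RingHom.ker (MvPolynomial.aeval y : MvPolynomial I L →ₐ[L] E') := by
    intro P hP
    rw [RingHom.mem_ker] at hP ⊢
    rw [← h P, ← hf P, hP]
    rfl
  let g : Algebra.adjoin L (Set.range x) →ₐ[L] E' := AlgHom.liftOfSurjective f hsurj _ hker
  have hg : ∀ P, g (f P) = MvPolynomial.aeval y P := fun P =>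
    AlgHom.liftOfSurjective_apply f hsurj _ hker P
  have hginj : Function.Injective g := by
    rw [injective_iff_map_eq_zero]
    intro a ha
    obtain ⟨P, rfl⟩ := hsurj a
    rw [hg, ← h P, ← hf P] at ha
    exact Subtype.ext ha
  refine ⟨IsFractionRing.liftAlgHom (R := L) (K := adjoin L (Set.range x)) hginj, fun i => ?_⟩
  have h1 : f (MvPolynomial.X i) = ⟨x i, Algebra.subset_adjoin ⟨i, rfl⟩⟩ := by
    simp only [f, MvPolynomial.aeval_X]
  have h2 : g (f (MvPolynomial.X i)) = y i := by
    rw [hg, MvPolynomial.aeval_X]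
  have h3 : (⟨x i, subset_adjoin _ _ ⟨i, rfl⟩⟩ : adjoin L (Set.range x)) =
      algebraMap (Algebra.adjoin L (Set.range x)) (adjoin L (Set.range x))
        (f (MvPolynomial.X i)) := by
    rw [h1]
    rfl
  rw [h3, IsFractionRing.liftAlgHom_apply, ← h2]
  exact IsFractionRing.lift_algebraMap hginj (f (MvPolynomial.X i))

end Fermat.Agent.TEll
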