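import Mathlib
import Fermat.Prelude.Def_ModularCurve_X0
import Fermat.Prelude.Def_ModularCurve_LaurentCoeff

/-! The degree `ℓ` covering `q ↦ q ^ ℓ` of Laurent series rings and its norm (helper88). -/

set_option autoImplicit false

noncomputable section

open HahnSeries ModularCurve

namespace Fermat.Agent.TEll

/-- `R((q))` viewed as an algebra over itself through `q ↦ q ^ ℓ`. -/
def Cov (R : Type*) [CommRing R] (_ℓ : ℕ) : Type _ := LaurentSeries R

section

variable (R : Type*) [CommRing R] (ℓ : ℕ)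

instance : CommRing (Cov R ℓ) := inferInstanceAs (CommRing (LaurentSeries R))

instance [Nontrivial R] : Nontrivial (Cov R ℓ) := inferInstanceAs (Nontrivial (LaurentSeries R))

instance [IsDomain R] : IsDomain (Cov R ℓ) := inferInstanceAs (IsDomain (LaurentSeries R))

/-- the identity `R((q)) → Cov R ℓ`. -/
def toCov : LaurentSeries R ≃+* Cov R ℓ := RingEquiv.refl _

variable [NeZero ℓ]

instance : Algebra (LaurentSeries R) (Cov R ℓ) := ((toCov R ℓ : LaurentSeries R →+* Cov R ℓ).comp (qExpand R ℓ)).toAlgebra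

theorem algebraMap_cov (c : LaurentSeries R) :
    algebraMap (LaurentSeries R) (Cov R ℓ) c = toCov R ℓ (qExpand R ℓ c) := rfl

end

section Sec

variable {R : Type*} [CommRing R]

theorem isPWO_sec (ℓ : ℕ) [NeZero ℓ] (i : ℤ) (y : LaurentSeries R) :
    (Function.support fun n : ℤ => y.coeff ((ℓ : ℤ) * n + i)).IsPWO := by
  have hℓ : (0 : ℤ) < ℓ := by exact_mod_cast Nat.pos_of_ne_zero (NeZero.ne ℓ)
  have hmono : Monotone fun m : ℤ => (m - i) / (ℓ : ℤ) := fun a b hab =>
    Int.ediv_le_ediv hℓ (by omega)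
  refine (y.isPWO_support.image_of_monotone hmono).mono ?_
  intro n hn
  refine ⟨(ℓ : ℤ) * n + i, hn, ?_⟩
  show ((ℓ : ℤ) * n + i - i) / (ℓ : ℤ) = n
  rw [add_sub_cancel_right, Int.mul_ediv_cancel_left _ hℓ.ne']

/-- the `i`-th section: `∑ yₙ qⁿ ↦ ∑ y_{ℓ n + i} qⁿ`. -/
def sec (ℓ : ℕ) [NeZero ℓ] (i : ℤ) (y : LaurentSeries R) : LaurentSeries R :=
  ⟨fun n : ℤ => y.coeff ((ℓ : ℤ) * n + i), isPWO_sec ℓ i y⟩

@[simp]
theorem sec_coeff (ℓ : ℕ) [NeZero ℓ] (i : ℤ) (y : LaurentSeries R) (n : ℤ) :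
    (sec ℓ i y).coeff n = y.coeff ((ℓ : ℤ) * n + i) := rfl

variable (ℓ : ℕ) [NeZero ℓ]

theorem sec_add (i : ℤ) (x y : LaurentSeries R) : sec ℓ i (x + y) = sec ℓ i x + sec ℓ i y := by
  ext n
  simp

theorem coeff_mul_single (x : LaurentSeries R) (j n : ℤ) :
    (x * HahnSeries.single j (1 : R)).coeff n = x.coeff (n - j) := by
  have h := HahnSeries.coeff_mul_single_add (r := (1 : R)) (x := x) (a := n - j) (b := j)
  rw [sub_add_cancel, mul_one] at h
  exact h

theorem sec_qExpand_mul_single (c : LaurentSeries R) (i : ℤ) (j : ℤ) :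
    sec ℓ i (qExpand R ℓ c * HahnSeries.single j (1 : R)) =
      if (ℓ : ℤ) ∣ (i - j) then c * HahnSeries.single (-((i - j) / (ℓ : ℤ))) (1 : R) else 0 := by
  have hℓ : (0 : ℤ) < ℓ := by exact_mod_cast Nat.pos_of_ne_zero (NeZero.ne ℓ)
  ext n
  rw [sec_coeff, coeff_mul_single]
  split_ifs with h
  · obtain ⟨m, hm⟩ := h
    rw [hm, Int.mul_ediv_cancel_left _ hℓ.ne', coeff_mul_single,
      show (ℓ : ℤ) * n + i - j = (ℓ : ℤ) * (n - -m) by rw [show (ℓ : ℤ) * n + i - j = (ℓ : ℤ) * n + (i - j) by ring, hm]; ring,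
      qExpand_coeff_mul]
  · rw [HahnSeries.coeff_zero]
    refine qExpand_coeff_of_not_dvd ℓ c ?_
    rintro ⟨m, hm⟩
    exact h ⟨m - n, by linarith⟩

end Sec

section Basis

variable (R : Type*) [CommRing R] (ℓ : ℕ) [NeZero ℓ]

/-- decomposition of a series along residues of exponents mod `ℓ`. -/
theorem sum_qExpand_sec (y : LaurentSeries R) :
    ∑ i : Fin ℓ, qExpand R ℓ (sec ℓ (i : ℤ) y) * HahnSeries.single (i : ℤ) (1 : R) = y := by
  have hℓ : (0 : ℤ) < ℓ := by exact_mod_cast Nat.pos_of_ne_zero (NeZero.ne ℓ)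
  ext n
  rw [HahnSeries.coeff_sum]
  have hr0 : 0 ≤ n % (ℓ : ℤ) := Int.emod_nonneg _ hℓ.ne'
  have hr1 : n % (ℓ : ℤ) < ℓ := Int.emod_lt_of_pos _ hℓ
  have hn : n = (ℓ : ℤ) * (n / ℓ) + n % ℓ := (Int.mul_ediv_add_emod n ℓ).symm
  set r : Fin ℓ := ⟨(n % (ℓ : ℤ)).toNat, by omega⟩ with hr
  have hrv : ((r : ℕ) : ℤ) = n % (ℓ : ℤ) := by simp [hr, hr0]
  rw [Finset.sum_eq_single r]
  · rw [coeff_mul_single, hrv,
      show n - n % (ℓ : ℤ) = (ℓ : ℤ) * (n / ℓ) by linarith, qExpand_coeff_mul, sec_coeff, ← hn]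
  · intro i _ hi
    rw [coeff_mul_single]
    refine qExpand_coeff_of_not_dvd ℓ _ ?_
    rintro ⟨m, hm⟩
    apply hi
    have hi0 : (0 : ℤ) ≤ (i : ℕ) := by positivity
    have hi1 : ((i : ℕ) : ℤ) < ℓ := by exact_mod_cast i.2
    have : n % (ℓ : ℤ) = (i : ℕ) := by
      rw [show n = (i : ℕ) + (ℓ : ℤ) * m by linarith, Int.add_mul_emod_self_left,
        Int.emod_eq_of_lt hi0 hi1]
    refine Fin.ext ?_
    have h2 : ((r : ℕ) : ℤ) = ((i : ℕ) : ℤ) := by rw [hrv, this]
    exact_mod_cast h2.symm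
  · intro h
    exact absurd (Finset.mem_univ _) h

/-- the basis `1, q, …, q^{ℓ-1}`. -/
def covEquiv : Cov R ℓ ≃ₗ[LaurentSeries R] (Fin ℓ → LaurentSeries R) where
  toFun y := fun i => sec ℓ (i : ℤ) ((toCov R ℓ).symm y)
  invFun g := toCov R ℓ (∑ i : Fin ℓ, qExpand R ℓ (g i) * HahnSeries.single (i : ℤ) (1 : R))
  map_add' x y := by
    funext i
    rw [map_add, sec_add]
    rfl
  map_smul' c y := by
    funext i
    obtain ⟨y, rfl⟩ := (toCov R ℓ).surjective y
    have h1 : (toCov R ℓ).symm (c • toCov R ℓ y) = qExpand R ℓ c * y := by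
      rw [Algebra.smul_def, algebraMap_cov, map_mul, RingEquiv.symm_apply_apply,
        RingEquiv.symm_apply_apply]
    simp only [RingHom.id_apply, Pi.smul_apply, smul_eq_mul]
    rw [h1, RingEquiv.symm_apply_apply]
    conv_lhs => rw [← sum_qExpand_sec R ℓ y, Finset.mul_sum]
    have hsum : ∀ (s : Finset (Fin ℓ)) (f : Fin ℓ → LaurentSeries R),
        sec ℓ (i : ℤ) (∑ j ∈ s, f j) = ∑ j ∈ s, sec ℓ (i : ℤ) (f j) := by
      intro s f
      classical
      induction s using Finset.induction_on with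
      | empty => ext n; simp
      | insert a s ha ih => rw [Finset.sum_insert ha, sec_add, ih, Finset.sum_insert ha]
    rw [hsum]
    rw [Finset.sum_eq_single i]
    · rw [← mul_assoc, ← map_mul, sec_qExpand_mul_single, if_pos (by simp)]
      simp
    · intro j _ hj
      rw [← mul_assoc, ← map_mul, sec_qExpand_mul_single, if_neg]
      rintro ⟨m, hm⟩
      apply hj
      have hi1 : ((i : ℕ) : ℤ) < ℓ := by exact_mod_cast i.2
      have hj1 : ((j : ℕ) : ℤ) < ℓ := by exact_mod_cast j.2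
      have hi0 : (0 : ℤ) ≤ (i : ℕ) := by positivity
      have hj0 : (0 : ℤ) ≤ (j : ℕ) := by positivity
      have hm0 : m = 0 := by
        rcases lt_trichotomy m 0 with h | h | h
        · exfalso; nlinarith
        · exact h
        · exfalso; nlinarith
      rw [hm0, mul_zero] at hm
      exact Fin.ext (by omega)
    · intro h
      exact absurd (Finset.mem_univ _) h
  left_inv y := by
    obtain ⟨y, rfl⟩ := (toCov R ℓ).surjective y
    simp only [RingEquiv.symm_apply_apply]
    rw [sum_qExpand_sec]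
  right_inv g := by
    funext i
    simp only [RingEquiv.symm_apply_apply]
    have hsum : ∀ (s : Finset (Fin ℓ)) (f : Fin ℓ → LaurentSeries R),
        sec ℓ (i : ℤ) (∑ j ∈ s, f j) = ∑ j ∈ s, sec ℓ (i : ℤ) (f j) := by
      intro s f
      classical
      induction s using Finset.induction_on with
      | empty => ext n; simp
      | insert a s ha ih => rw [Finset.sum_insert ha, sec_add, ih, Finset.sum_insert ha]
    rw [hsum]
    rw [Finset.sum_eq_single i]
    · rw [sec_qExpand_mul_single, if_pos (by simp)]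
      simp
    · intro j _ hj
      rw [sec_qExpand_mul_single, if_neg]
      rintro ⟨m, hm⟩
      apply hj
      have hi1 : ((i : ℕ) : ℤ) < ℓ := by exact_mod_cast i.2
      have hj1 : ((j : ℕ) : ℤ) < ℓ := by exact_mod_cast j.2
      have hi0 : (0 : ℤ) ≤ (i : ℕ) := by positivity
      have hj0 : (0 : ℤ) ≤ (j : ℕ) := by positivity
      have hm0 : m = 0 := by
        rcases lt_trichotomy m 0 with h | h | h
        · exfalso; nlinarith
        · exact h
        · exfalso; nlinarith
      rw [hm0, mul_zero] at hm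
      exact Fin.ext (by omega)
    · intro h
      exact absurd (Finset.mem_univ _) h

/-- the basis `1, q, …, q^{ℓ-1}` of `R((q))` over `R((q^ℓ))`. -/
def covBasis : Module.Basis (Fin ℓ) (LaurentSeries R) (Cov R ℓ) :=
  Module.Basis.ofEquivFun (covEquiv R ℓ)

instance : Module.Finite (LaurentSeries R) (Cov R ℓ) := Module.Finite.of_basis (covBasis R ℓ)

instance : Module.Free (LaurentSeries R) (Cov R ℓ) := Module.Free.of_basis (covBasis R ℓ)

theorem finrank_cov [Nontrivial R] : Module.finrank (LaurentSeries R) (Cov R ℓ) = ℓ := by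
  rw [Module.finrank_eq_card_basis (covBasis R ℓ), Fintype.card_fin]

theorem covBasis_repr (y : Cov R ℓ) (i : Fin ℓ) :
    (covBasis R ℓ).repr y i = sec ℓ (i : ℤ) ((toCov R ℓ).symm y) := by
  have h := congrFun (Module.Basis.equivFun_apply (covBasis R ℓ) y) i
  rw [← h, covBasis, Module.Basis.equivFun_ofEquivFun]
  rfl

theorem covBasis_apply (i : Fin ℓ) :
    covBasis R ℓ i = toCov R ℓ (HahnSeries.single (i : ℤ) (1 : R)) := by
  symm
  apply (covBasis R ℓ).repr.injective
  ext1 j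
  rw [covBasis_repr, RingEquiv.symm_apply_apply, Module.Basis.repr_self]
  have h := sec_qExpand_mul_single (R := R) ℓ 1 (j : ℤ) (i : ℤ)
  rw [map_one, one_mul] at h
  rw [h]
  by_cases hij : i = j
  · subst hij
    simp
  · rw [Finsupp.single_eq_of_ne (Ne.symm hij), if_neg]
    rintro ⟨m, hm⟩
    apply hij
    have hi1 : ((i : ℕ) : ℤ) < ℓ := by exact_mod_cast i.2
    have hj1 : ((j : ℕ) : ℤ) < ℓ := by exact_mod_cast j.2
    have hi0 : (0 : ℤ) ≤ (i : ℕ) := by positivity
    have hj0 : (0 : ℤ) ≤ (j : ℕ) := by positivity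
    have hm0 : m = 0 := by
      rcases lt_trichotomy m 0 with h | h | h
      · exfalso; nlinarith
      · exact h
      · exfalso; nlinarith
    rw [hm0, mul_zero] at hm
    exact Fin.ext (by omega)

/-- the norm `∏_b y(ζ^b q)` expressed as a series in `q^ℓ`. -/
def secNorm : LaurentSeries R →* LaurentSeries R :=
  (Algebra.norm (LaurentSeries R) (S := Cov R ℓ)).comp (toCov R ℓ : LaurentSeries R →* Cov R ℓ)

theorem secNorm_apply (y : LaurentSeries R) :
    secNorm R ℓ y = Algebra.norm (LaurentSeries R) (toCov R ℓ y) := rfl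

theorem secNorm_eq_det (y : LaurentSeries R) :
    secNorm R ℓ y = (Matrix.of fun i j : Fin ℓ =>
      sec ℓ (i : ℤ) (y * HahnSeries.single (j : ℤ) (1 : R))).det := by
  rw [secNorm_apply, Algebra.norm_eq_matrix_det (covBasis R ℓ)]
  congr 1
  ext1 i j
  rw [Algebra.leftMulMatrix_eq_repr_mul, covBasis_repr, covBasis_apply, ← map_mul,
    RingEquiv.symm_apply_apply]
  rfl

end Basis

section Naturality

variable {R S : Type*} [CommRing R] [CommRing S] (ℓ : ℕ) [NeZero ℓ]

theorem coeffMap_sec (f : R →+* S) (i : ℤ) (y : LaurentSeries R) :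
    coeffMap f (sec ℓ i y) = sec ℓ i (coeffMap f y) := by
  ext n
  rfl

theorem coeffMap_secNorm (f : R →+* S) (y : LaurentSeries R) :
    coeffMap f (secNorm R ℓ y) = secNorm S ℓ (coeffMap f y) := by
  rw [secNorm_eq_det, secNorm_eq_det, RingHom.map_det]
  congr 1
  ext1 i j
  show coeffMap f (sec ℓ (i : ℤ) (y * HahnSeries.single (j : ℤ) (1 : R))) = _
  rw [coeffMap_sec, map_mul, coeffMap_single, map_one]
  rfl

end Naturality

section CharP

variable {k : Type*} [CommRing k] (ℓ : ℕ) [hℓ : Fact ℓ.Prime] [CharP k ℓ]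

instance : NeZero ℓ := ⟨hℓ.out.ne_zero⟩

theorem charP_laurent : CharP (LaurentSeries k) ℓ := by
  have hinj : Function.Injective (HahnSeries.C : k →+* LaurentSeries k) :=
    HahnSeries.C_injective
  exact charP_of_injective_ringHom hinj ℓ

omit hℓ [CharP k ℓ] in
theorem qExpand_ofPowerSeries [NeZero ℓ] (p : PowerSeries k) :
    qExpand k ℓ (HahnSeries.ofPowerSeries ℤ k p) =
      HahnSeries.ofPowerSeries ℤ k (PowerSeries.expand ℓ (NeZero.ne ℓ) p) := by
  ext n
  by_cases hn : (ℓ : ℤ) ∣ n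
  · obtain ⟨m, rfl⟩ := hn
    rw [qExpand_coeff_mul]
    rcases lt_or_ge m 0 with hm | hm
    · rw [ofPowerSeries_coeff_of_neg _ hm, ofPowerSeries_coeff_of_neg _
        (mul_neg_of_pos_of_neg (by exact_mod_cast Nat.pos_of_ne_zero (NeZero.ne ℓ)) hm)]
    · lift m to ℕ using hm
      rw [HahnSeries.ofPowerSeries_apply_coeff]
      have h2 : ((ℓ : ℤ) * (m : ℤ)) = ((ℓ * m : ℕ) : ℤ) := by push_cast; ring
      rw [h2, HahnSeries.ofPowerSeries_apply_coeff, PowerSeries.coeff_expand_mul]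
  · rw [qExpand_coeff_of_not_dvd ℓ _ hn]
    rcases lt_or_ge n 0 with hm | hm
    · rw [ofPowerSeries_coeff_of_neg _ hm]
    · lift n to ℕ using hm
      rw [HahnSeries.ofPowerSeries_apply_coeff, PowerSeries.coeff_expand_of_not_dvd]
      intro h
      exact hn (by exact_mod_cast h)

theorem coeffMap_ofPowerSeries' {R S : Type*} [CommRing R] [CommRing S] (f : R →+* S)
    (p : PowerSeries R) :
    coeffMap f (HahnSeries.ofPowerSeries ℤ R p) = HahnSeries.ofPowerSeries ℤ S (p.map f) := by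
  ext n
  rw [coeffMap_coeff]
  rcases lt_or_ge n 0 with hm | hm
  · rw [ofPowerSeries_coeff_of_neg _ hm, ofPowerSeries_coeff_of_neg _ hm, map_zero]
  · lift n to ℕ using hm
    rw [HahnSeries.ofPowerSeries_apply_coeff, HahnSeries.ofPowerSeries_apply_coeff,
      PowerSeries.coeff_map]

theorem map_frobenius_expand (p : PowerSeries k) :
    PowerSeries.expand ℓ (NeZero.ne ℓ) (p.map (frobenius k ℓ)) = p ^ ℓ := by
  rw [← PowerSeries.map_expand]
  exact MvPowerSeries.map_frobenius_expand ℓ (NeZero.ne ℓ)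

theorem qExpand_coeffMap_frobenius (y : LaurentSeries k) :
    qExpand k ℓ (coeffMap (frobenius k ℓ) y) = y ^ ℓ := by
  have h := LaurentSeries.single_order_mul_powerSeriesPart y
  conv_lhs => rw [← h]
  conv_rhs => rw [← h]
  rw [map_mul, map_mul, coeffMap_ofPowerSeries', qExpand_ofPowerSeries, map_frobenius_expand,
    coeffMap_single, map_one, qExpand_single, mul_pow, HahnSeries.single_pow, one_pow, ← map_pow,
    nsmul_eq_mul]

theorem secNorm_charP [IsDomain k] (y : LaurentSeries k) :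
    secNorm k ℓ y = coeffMap (frobenius k ℓ) y := by
  haveI := charP_laurent (k := k) ℓ
  have h1 : (secNorm k ℓ y) ^ ℓ = (coeffMap (frobenius k ℓ) y) ^ ℓ := by
    rw [← map_pow, ← qExpand_coeffMap_frobenius ℓ y, secNorm_apply, ← algebraMap_cov,
      Algebra.norm_algebraMap, finrank_cov]
  exact frobenius_inj (LaurentSeries k) ℓ h1

end CharP

end Fermat.Agent.TEll
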