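import Mathlib
import Fermat.Prelude.Def_ModularCurve_HeckeOperatorTotal
import Fermat.Prelude.Def_ModularCurve_X0ModL
import Fermat.Prelude.Thm_ModularCurve_coeffMap_qExpand
import Fermat.Agent.TEll.SecNorm
import Fermat.Agent.TEll.Along

/-! `T_ℓ` on functions: the norm along `α` of `β f` and its `q`-expansion (helper88). -/

set_option autoImplicit false
set_option linter.dupNamespace false

noncomputable section

open HahnSeries ModularCurve AlgebraicCurve

namespace Fermat.Agent.TEll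

instance instFieldCov (L : Type*) [Field L] (ℓ : ℕ) : Field (Cov L ℓ) :=
  inferInstanceAs (Field (LaurentSeries L))

/-- the function field of `X₀(N)` over `L`. -/
abbrev FF0 (L : Type*) [Field L] [Algebra ℚ L] (N : ℕ) : IntermediateField L (LaurentSeries L) :=
  laurentBaseChange L (modularFunctionFieldFull N)

section

variable (L : Type*) [Field L] [Algebra ℚ L] (N ℓ : ℕ) [NeZero N] [NeZero ℓ]

/-- `T_ℓ` on functions: the norm along `α` of `β f`. -/
def TEll : FF0 L N →* FF0 L N :=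
  (normAlong (heckeAlphaBar L N ℓ)).comp
    ((heckeBetaBar L N ℓ : FF0 L N →+* FF0 L (N * ℓ)) : FF0 L N →* FF0 L (N * ℓ))

theorem TEll_apply (f : FF0 L N) :
    TEll L N ℓ f = normAlong (heckeAlphaBar L N ℓ) (heckeBetaBar L N ℓ f) := rfl

theorem TEll_ne_zero (hfin : FiniteAlong L (heckeAlphaBar L N ℓ)) {f : FF0 L N} (hf : f ≠ 0) :
    TEll L N ℓ f ≠ 0 := by
  rw [TEll_apply]
  exact normAlong_ne_zero _ hfin
    ((map_ne_zero_iff (heckeBetaBarRingHom L N ℓ) (RingHom.injective _)).mpr hf)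

/-- a partial Atkin–Lehner isomorphism: a second embedding of the function field of `X₀(Nℓ)`
in `L((q))`, exchanging the two degeneracies. -/
def HasSwap : Prop :=
  ∃ w : FF0 L (N * ℓ) →+* LaurentSeries L,
    (∀ f : FF0 L N, w (heckeAlphaBar L N ℓ f) = qExpand L ℓ (f : LaurentSeries L)) ∧
      (∀ f : FF0 L N, w (heckeBetaBar L N ℓ f) = (f : LaurentSeries L))

variable {L N ℓ}

theorem heckeDivBar_eq_ord_TEll
    (hα : HeckeAlphaBarIntegral L N ℓ) (hβ : HeckeBetaBarIntegral L N ℓ)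
    [HasPrincipalDivisors L (laurentBaseChange L (modularFunctionFieldFull (N * ℓ)))]
    (hfin : FiniteAlong L (heckeAlphaBar L N ℓ))
    (hN : NormFormulaAlong L (heckeAlphaBar L N ℓ) hfin)
    {f : FF0 L N} (hf : f ≠ 0) {D : Divisor L (FF0 L N)} (hD : ∀ v, D v = v.ord f)
    (v : Place L (FF0 L N)) :
    heckeDivBar hα hβ D v = v.ord (TEll L N ℓ f) :=
  correspondence_eq_ord _ _ hα hβ hfin hN hf hD v

end

section Series

variable {L : Type*} [Field L] [Algebra ℚ L] {N ℓ : ℕ}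

theorem coeffEmb_jq_coeff_neg_one : (coeffEmb L jq).coeff (-1) = 1 := by
  rw [coeffEmb_coeff, coeff_jq_neg_one, map_one]

theorem coeffEmb_jq_mem : coeffEmb L jq ∈ FF0 L N := by
  apply coeffEmb_mem_laurentBaseChange
  have h := jqd_mem_full N (one_dvd N)
  rwa [qExpand_one_apply] at h

variable [NeZero N] [NeZero ℓ]

theorem coe_normAlong (hℓ : ℓ.Prime) (w : FF0 L (N * ℓ) →+* LaurentSeries L)
    (hwα : ∀ f : FF0 L N, w (heckeAlphaBar L N ℓ f) = qExpand L ℓ (f : LaurentSeries L))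
    (hdeg : finrankAlong L (heckeAlphaBar L N ℓ) = ℓ + 1) (x₀ : FF0 L (N * ℓ))
    (hx₀ : (toCov L ℓ) (w x₀) ∉ (algebraMap (LaurentSeries L) (Cov L ℓ)).range)
    (f : FF0 L (N * ℓ)) :
    (normAlong (heckeAlphaBar L N ℓ) f : LaurentSeries L) =
      (f : LaurentSeries L) * secNorm L ℓ (w f) := by
  have hfr : Module.finrank (LaurentSeries L) (Cov L ℓ) = ℓ := finrank_cov L ℓ
  have hℓ' : (Module.finrank (LaurentSeries L) (Cov L ℓ)).Prime := hfr.symm ▸ hℓ
  have hdeg' : finrankAlong L (heckeAlphaBar L N ℓ) =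
      (Module.finrank (LaurentSeries L) (Cov L ℓ)) + 1 := hdeg.trans (congrArg (· + 1) hfr.symm)
  exact normAlong_split (heckeAlphaBar L N ℓ) (R := Cov L ℓ)
    (algebraMap (FF0 L N) (LaurentSeries L))
    (algebraMap (FF0 L (N * ℓ)) (LaurentSeries L))
    (fun e => coe_heckeAlphaBar N ℓ e) ((toCov L ℓ : LaurentSeries L →+* Cov L ℓ).comp w)
    (fun e => congrArg (toCov L ℓ) (hwα e)) hℓ' hdeg'
    x₀ hx₀ f

omit [NeZero N] in
theorem jq_not_mem_range (hℓ : ℓ.Prime) :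
    (toCov L ℓ) (coeffEmb L jq) ∉ (algebraMap (LaurentSeries L) (Cov L ℓ)).range := by
  rintro ⟨c, hc⟩
  have hc' : qExpand L ℓ c = coeffEmb L jq := (toCov L ℓ).injective hc
  have h1 : (qExpand L ℓ c).coeff (-1) = 1 := by
    rw [hc', coeffEmb_jq_coeff_neg_one]
  rw [qExpand_coeff_of_not_dvd] at h1
  · exact zero_ne_one h1
  · rw [Int.dvd_neg]
    intro h
    have := Int.natCast_dvd_natCast.mp (by simpa using h : ((ℓ : ℕ) : ℤ) ∣ ((1 : ℕ) : ℤ))
    exact hℓ.one_lt.ne' (Nat.dvd_one.mp this)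

/-- **The `q`-expansion of `T_ℓ f`**: `f(q^ℓ)` times the product of the `f(ζ^b q^{1/ℓ})`. -/
theorem coe_TEll (hℓ : ℓ.Prime) (hsw : HasSwap L N ℓ)
    (hdeg : finrankAlong L (heckeAlphaBar L N ℓ) = ℓ + 1) (f : FF0 L N) :
    (TEll L N ℓ f : LaurentSeries L) =
      qExpand L ℓ (f : LaurentSeries L) * secNorm L ℓ (f : LaurentSeries L) := by
  obtain ⟨w, hwα, hwβ⟩ := hsw
  have hx₀ : (toCov L ℓ) (w (heckeBetaBar L N ℓ ⟨coeffEmb L jq, coeffEmb_jq_mem⟩)) ∉
      (algebraMap (LaurentSeries L) (Cov L ℓ)).range := by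
    rw [hwβ]
    exact jq_not_mem_range hℓ
  have key := coe_normAlong hℓ w hwα hdeg _ hx₀ (heckeBetaBar L N ℓ f)
  rw [hwβ, coe_heckeBetaBar] at key
  exact key

end Series

section Reduction

variable {R S k : Type*} [CommRing R] [CommRing S] [Field k] (ℓ : ℕ)

/-- the universal formula for `T_ℓ` on `q`-expansions. -/
def TSer (R : Type*) [CommRing R] (ℓ : ℕ) [NeZero ℓ] : LaurentSeries R →* LaurentSeries R where
  toFun y := qExpand R ℓ y * secNorm R ℓ y
  map_one' := by rw [map_one, map_one, one_mul]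
  map_mul' y z := by rw [map_mul, map_mul]; ring

theorem TSer_apply [NeZero ℓ] (y : LaurentSeries R) :
    TSer R ℓ y = qExpand R ℓ y * secNorm R ℓ y := rfl

theorem coeffMap_TSer [NeZero ℓ] (g : R →+* S) (y : LaurentSeries R) :
    coeffMap g (TSer R ℓ y) = TSer S ℓ (coeffMap g y) := by
  rw [TSer_apply, TSer_apply, map_mul, coeffMap_secNorm, ModularCurve.coeffMap_qExpand]

/-- **The Kronecker congruence for norms**: in characteristic `ℓ`,
`T_ℓ y = y(q^ℓ) * φ(y)`. -/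
theorem TSer_charP [hℓ : Fact ℓ.Prime] [CharP k ℓ] (y : LaurentSeries k) :
    TSer k ℓ y = qExpand k ℓ y * coeffMap (frobenius k ℓ) y := by
  rw [TSer_apply, secNorm_charP]

theorem qExpand_eq_pow [hℓ : Fact ℓ.Prime] [CharP k ℓ] (y z : LaurentSeries k)
    (h : coeffMap (frobenius k ℓ) z = y) : qExpand k ℓ y = z ^ ℓ := by
  rw [← h, qExpand_coeffMap_frobenius]

end Reduction

section Reduction2

variable {L : Type*} [Field L] [Algebra ℚ L] {N ℓ : ℕ} [NeZero N]

theorem coe_TEll_eq_TSer [NeZero ℓ] (hℓ : ℓ.Prime) (hsw : HasSwap L N ℓ)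
    (hdeg : finrankAlong L (heckeAlphaBar L N ℓ) = ℓ + 1) (f : FF0 L N) :
    (TEll L N ℓ f : LaurentSeries L) = TSer L ℓ (f : LaurentSeries L) :=
  coe_TEll hℓ hsw hdeg f

theorem coe_TEll_eq_coeffMap [NeZero ℓ] (hℓ : ℓ.Prime) (hsw : HasSwap L N ℓ)
    (hdeg : finrankAlong L (heckeAlphaBar L N ℓ) = ℓ + 1) (A : ValuationSubring L)
    (y : LaurentSeries A) (hy : coeffMap A.subtype y ∈ FF0 L N) :
    (TEll L N ℓ ⟨coeffMap A.subtype y, hy⟩ : LaurentSeries L) =
      coeffMap A.subtype (TSer A ℓ y) := by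
  rw [coe_TEll_eq_TSer hℓ hsw hdeg, coeffMap_TSer]

end Reduction2

end Fermat.Agent.TEll
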