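import Mathlib
import Fermat.Agent.TEll.Basic
import Fermat.Agent.TEll.AdjoinHom
import Fermat.Agent.X0Emb.JExp

/-! The partial Atkin–Lehner automorphism of the function field of `X₀(Nℓ)` (helper88). -/

set_option autoImplicit false

noncomputable section

open HahnSeries ModularCurve AlgebraicCurve UpperHalfPlane
open Fermat.Agent.JLevelOne Fermat.Agent.X0Emb
open scoped MatrixGroups

namespace Fermat.Agent.TEll

/-- pairs of divisors of `N` and of `ℓ`. -/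
abbrev Ix (N ℓ : ℕ) : Type := {d : ℕ // d ∈ N.divisors} × {d : ℕ // d ∈ ℓ.divisors}

variable {N ℓ : ℕ}

theorem Ix.ne_zero (i : Ix N ℓ) : i.1.1 * i.2.1 ≠ 0 :=
  Nat.mul_ne_zero (Nat.pos_of_mem_divisors i.1.2).ne' (Nat.pos_of_mem_divisors i.2.2).ne'

instance instNeZeroIx (i : Ix N ℓ) : NeZero (i.1.1 * i.2.1) := ⟨i.ne_zero⟩

/-- the series `j(q^d)`. -/
def jser (L : Type*) [CommRing L] (i : Ix N ℓ) : LaurentSeries L :=
  qExpand L (i.1.1 * i.2.1) (jqModC L)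

/-- `(d₁, d₂) ↦ (d₁, ℓ / d₂)`. -/
def swapIx (i : Ix N ℓ) : Ix N ℓ :=
  (i.1, ⟨ℓ / i.2.1, by
    rw [Nat.mem_divisors]
    have h := Nat.mem_divisors.mp i.2.2
    exact ⟨Nat.div_dvd_of_dvd h.1, h.2⟩⟩)

theorem swapIx_swapIx (i : Ix N ℓ) : swapIx (swapIx i) = i := by
  have h := Nat.mem_divisors.mp i.2.2
  refine Prod.ext rfl (Subtype.ext ?_)
  show ℓ / (ℓ / i.2.1) = i.2.1
  exact Nat.div_div_self h.1 h.2

/-- the value `j(d τ)`. -/
def jval (τ : ℍ) (i : Ix N ℓ) : ℂ := jFun (aff (i.1.1 * i.2.1) 0 1 τ)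

theorem aff_swap [NeZero N] [NeZero ℓ] (x y : ℤ) (hxy : (ℓ : ℤ) * x + N * y = 1) (i : Ix N ℓ)
    (τ : ℍ) (g₀ : SL(2, ℤ)) (h00 : g₀ 0 0 = ℓ * x) (h01 : g₀ 0 1 = - y) (h10 : g₀ 1 0 = N)
    (h11 : g₀ 1 1 = 1) :
    jval (aff 1 0 ℓ (g₀ • τ)) i = jval τ (swapIx i) := by
  obtain ⟨⟨d₁, hd₁⟩, ⟨d₂, hd₂⟩⟩ := i
  have h1 := Nat.mem_divisors.mp hd₁
  have h2 := Nat.mem_divisors.mp hd₂
  obtain ⟨n, hn⟩ := h1.1
  obtain ⟨e, he⟩ := h2.1
  have hd₁0 : d₁ ≠ 0 := (Nat.pos_of_mem_divisors hd₁).ne'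
  have hd₂0 : d₂ ≠ 0 := (Nat.pos_of_mem_divisors hd₂).ne'
  have he0 : e ≠ 0 := by rintro rfl; exact h2.2 (by rw [he, mul_zero])
  have hn0 : n ≠ 0 := by rintro rfl; exact h1.2 (by rw [hn, mul_zero])
  have hdet : ((!![(d₂ : ℤ) * x, -(d₁ : ℤ) * y; (n : ℤ), (e : ℤ)] : Matrix (Fin 2) (Fin 2) ℤ)).det
      = 1 := by
    rw [Matrix.det_fin_two_of, ← hxy]
    have hN : (N : ℤ) = d₁ * n := by exact_mod_cast hn
    have hL : (ℓ : ℤ) = d₂ * e := by exact_mod_cast he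
    rw [hN, hL]
    ring
  let γ : SL(2, ℤ) := ⟨_, hdet⟩
  have hγ00 : γ 0 0 = (d₂ : ℤ) * x := rfl
  have hγ01 : γ 0 1 = -(d₁ : ℤ) * y := rfl
  have hγ10 : γ 1 0 = (n : ℤ) := rfl
  have hγ11 : γ 1 1 = (e : ℤ) := rfl
  have : NeZero (d₁ * e) := ⟨Nat.mul_ne_zero hd₁0 he0⟩
  have hdiv : ℓ / d₂ = e := by rw [he, Nat.mul_div_cancel_left _ (Nat.pos_of_ne_zero hd₂0)]
  have hB : jval τ (swapIx (⟨⟨d₁, hd₁⟩, ⟨d₂, hd₂⟩⟩ : Ix N ℓ)) = jFun (aff (d₁ * e) 0 1 τ) := by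
    unfold jval swapIx
    simp only
    congr 1
    apply UpperHalfPlane.ext
    rw [coe_aff, coe_aff, hdiv]
  rw [hB, ← jFun_smul γ]
  unfold jval
  simp only
  congr 1
  apply UpperHalfPlane.ext
  have hden : ((N : ℂ) * τ + 1) ≠ 0 := by
    have := UpperHalfPlane.denom_ne_zero g₀ τ
    simpa [UpperHalfPlane.denom, h10, h11] using this
  have hd₁' : (d₁ : ℂ) ≠ 0 := by exact_mod_cast hd₁0
  have hd₂' : (d₂ : ℂ) ≠ 0 := by exact_mod_cast hd₂0
  have he' : (e : ℂ) ≠ 0 := by exact_mod_cast he0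
  have hn' : (n : ℂ) ≠ 0 := by exact_mod_cast hn0
  rw [coe_aff, coe_aff, coe_specialLinearGroup_apply, coe_specialLinearGroup_apply, coe_aff, h00,
    h01, h10, h11, hγ00, hγ01, hγ10, hγ11]
  have hN : (N : ℂ) = d₁ * n := by exact_mod_cast hn
  have hL : (ℓ : ℂ) = d₂ * e := by exact_mod_cast he
  simp only [algebraMap_int_eq, eq_intCast, Int.cast_mul, Int.cast_natCast, Int.cast_neg,
    Int.cast_one, Complex.ofReal_mul, Complex.ofReal_natCast, Complex.ofReal_intCast,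
    Complex.ofReal_neg, Complex.ofReal_one, Nat.cast_mul, Nat.cast_zero, add_zero, Nat.cast_one,
    div_one, one_mul]
  rw [hN] at hden ⊢
  rw [hL]
  have hden2 : (n : ℂ) * ((d₁ : ℂ) * e * τ) + e ≠ 0 := by
    have : (n : ℂ) * ((d₁ : ℂ) * e * τ) + e = e * (d₁ * n * τ + 1) := by ring
    rw [this]
    exact mul_ne_zero he' hden
  field_simp

theorem twist_zetaU_zero (G : LaurentSeries ℂ) : twist (zetaU 0 1) G = G := by
  have h : zetaU 0 1 = 1 := by
    apply Units.ext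
    simp [zetaU]
  ext n
  rw [twist_coeff, h, one_zpow, Units.val_one, one_mul]

theorem lexp_jser (i : Ix N ℓ) : LExp 1 (fun τ => jval τ i) (jser ℂ i) := by
  have h := lexp_jFun.aff (i.1.1 * i.2.1) 0 1 (i.1.1 * i.2.1) 1 rfl
  rw [twist_zetaU_zero, Nat.cast_one] at h
  exact h

theorem lexp_aeval (P : MvPolynomial (Ix N ℓ) ℂ) :
    LExp 1 (fun τ => MvPolynomial.eval (jval τ) P) (MvPolynomial.aeval (jser ℂ) P) := by
  induction P using MvPolynomial.induction_on with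
  | C a =>
    simp only [MvPolynomial.eval_C, MvPolynomial.aeval_C]
    rw [algebraMap_laurentSeries_eq_single]
    exact LExp.const 1 a
  | add p q hp hq =>
    simp only [map_add]
    exact hp.add hq
  | mul_X p i hp =>
    simp only [map_mul, MvPolynomial.eval_X, MvPolynomial.aeval_X]
    exact hp.mul (lexp_jser i)

theorem exists_matrix [NeZero N] (hc : Nat.Coprime ℓ N) : ∃ (x y : ℤ) (g₀ : SL(2, ℤ)),
    (ℓ : ℤ) * x + N * y = 1 ∧ g₀ 0 0 = ℓ * x ∧ g₀ 0 1 = - y ∧ g₀ 1 0 = N ∧ g₀ 1 1 = 1 := by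
  have hb := Nat.gcd_eq_gcd_ab ℓ N
  rw [hc.gcd_eq_one] at hb
  have hdet : ((!![(ℓ : ℤ) * Nat.gcdA ℓ N, - Nat.gcdB ℓ N; (N : ℤ), 1] :
      Matrix (Fin 2) (Fin 2) ℤ)).det = 1 := by
    rw [Matrix.det_fin_two_of]
    push_cast at hb
    linarith
  exact ⟨Nat.gcdA ℓ N, Nat.gcdB ℓ N, ⟨_, hdet⟩, by push_cast at hb; linarith, rfl, rfl, rfl, rfl⟩

theorem aeval_swap_complex [NeZero N] [NeZero ℓ] (hc : Nat.Coprime ℓ N)
    (P : MvPolynomial (Ix N ℓ) ℂ) (h : MvPolynomial.aeval (jser ℂ) P = 0) :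
    MvPolynomial.aeval (fun i => jser ℂ (swapIx i)) P = 0 := by
  obtain ⟨x, y, g₀, hxy, h00, h01, h10, h11⟩ := exists_matrix hc
  have h1 := lexp_aeval P
  rw [h] at h1
  have h2 : ∀ τ : ℍ, MvPolynomial.eval (jval τ) P = 0 := fun τ =>
    congrFun (h1.funext (LExp.zero 1)) τ
  have h3 := lexp_aeval (MvPolynomial.rename swapIx P)
  have h4 : (fun τ : ℍ => MvPolynomial.eval (jval τ) (MvPolynomial.rename swapIx P)) = 0 := by
    funext τ
    rw [MvPolynomial.eval_rename]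
    have h5 : (jval τ ∘ swapIx : Ix N ℓ → ℂ) = jval (aff 1 0 ℓ (g₀ • τ)) := by
      funext i
      exact (aff_swap x y hxy i τ g₀ h00 h01 h10 h11).symm
    rw [h5]
    exact h2 _
  rw [h4] at h3
  have h6 := h3.eq_zero one_pos
  rwa [MvPolynomial.aeval_rename] at h6

section General

variable {L : Type*} [Field L] (ι : L →+* ℂ)

theorem coeffMap_jser (i : Ix N ℓ) : coeffMap ι (jser L i) = jser ℂ i := by
  unfold jser
  rw [ModularCurve.coeffMap_qExpand, coeffMap_jqModC]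

theorem coeffMap_aeval (f : Ix N ℓ → Ix N ℓ) (P : MvPolynomial (Ix N ℓ) L) :
    coeffMap ι (MvPolynomial.aeval (fun i => jser L (f i)) P) =
      MvPolynomial.aeval (fun i => jser ℂ (f i)) (MvPolynomial.map ι P) := by
  induction P using MvPolynomial.induction_on with
  | C a =>
    rw [MvPolynomial.aeval_C, MvPolynomial.map_C, MvPolynomial.aeval_C,
      algebraMap_laurentSeries_eq_single, algebraMap_laurentSeries_eq_single, coeffMap_single]
  | add p q hp hq => rw [map_add, map_add, hp, hq, map_add, map_add]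
  | mul_X p i hp =>
    rw [map_mul, map_mul, hp, map_mul, map_mul, MvPolynomial.aeval_X, MvPolynomial.map_X,
      MvPolynomial.aeval_X, coeffMap_jser]

theorem coeffMap_injective' {R S : Type*} [CommRing R] [CommRing S] {g : R →+* S}
    (hg : Function.Injective g) : Function.Injective (coeffMap g) := by
  intro x y h
  ext n
  apply hg
  rw [← coeffMap_coeff, ← coeffMap_coeff, h]

include ι in
theorem aeval_swap [NeZero N] [NeZero ℓ] (hc : Nat.Coprime ℓ N)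
    (P : MvPolynomial (Ix N ℓ) L) (h : MvPolynomial.aeval (jser L) P = 0) :
    MvPolynomial.aeval (fun i => jser L (swapIx i)) P = 0 := by
  apply coeffMap_injective' ι.injective
  rw [coeffMap_aeval, map_zero]
  apply aeval_swap_complex hc
  have h1 := coeffMap_aeval ι (fun i => i) P
  rw [h, map_zero] at h1
  exact h1.symm

include ι in
theorem aeval_swap_iff [NeZero N] [NeZero ℓ] (hc : Nat.Coprime ℓ N)
    (P : MvPolynomial (Ix N ℓ) L) : MvPolynomial.aeval (jser L) P = 0 ↔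
    MvPolynomial.aeval (fun i => jser L (swapIx i)) P = 0 := by
  refine ⟨aeval_swap ι hc P, fun h => ?_⟩
  have h1 : MvPolynomial.aeval (jser L) (MvPolynomial.rename swapIx P) = 0 := by
    rw [MvPolynomial.aeval_rename]
    exact h
  have h2 := aeval_swap ι hc _ h1
  rw [MvPolynomial.aeval_rename] at h2
  have h3 : ((fun i => jser L (swapIx i)) ∘ swapIx : Ix N ℓ → LaurentSeries L) = jser L := by
    funext i
    show jser L (swapIx (swapIx i)) = jser L i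
    rw [swapIx_swapIx]
  rwa [h3] at h2

end General

end Fermat.Agent.TEll
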