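import Mathlib
import Fermat.Agent.TEll.Swap

/-! The partial Atkin–Lehner automorphism of the function field of `X₀(Nℓ)`: the field
automorphism (helper88). -/

set_option autoImplicit false

noncomputable section

open HahnSeries ModularCurve AlgebraicCurve IntermediateField

namespace Fermat.Agent.TEll

section Gen

variable (L : Type*) [Field L] [Algebra ℚ L]

theorem laurentBaseChange_adjoin (S : Set (LaurentSeries ℚ)) :
    laurentBaseChange L (adjoin ℚ S) = adjoin L (⇑(coeffEmb L) '' S) := by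
  apply le_antisymm
  · rw [laurentBaseChange, adjoin_le_iff]
    rintro _ ⟨y, hy, rfl⟩
    induction hy using adjoin_induction with
    | mem x hx => exact subset_adjoin _ _ ⟨x, hx, rfl⟩
    | algebraMap x =>
      rw [algebraMap_apply_eq_single]
      have : coeffEmb L (HahnSeries.single 0 x) =
          algebraMap L (LaurentSeries L) (algebraMap ℚ L x) := by
        rw [coeffEmb, coeffMap_single, algebraMap_laurentSeries_eq_single]
      rw [this]
      exact (adjoin L (⇑(coeffEmb L) '' S)).algebraMap_mem _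
    | add x y hx hy h1 h2 => rw [map_add]; exact add_mem h1 h2
    | inv x hx h1 => rw [map_inv₀]; exact inv_mem h1
    | mul x y hx hy h1 h2 => rw [map_mul]; exact mul_mem h1 h2
  · rw [laurentBaseChange]
    exact adjoin.mono _ _ _ (Set.image_mono (subset_adjoin ℚ S))

theorem coeffEmb_qExpand_jq (d : ℕ) [NeZero d] :
    coeffEmb L (qExpand ℚ d jq) = qExpand L d (jqModC L) := by
  rw [coeffEmb, ModularCurve.coeffMap_qExpand, Fermat.Agent.X0Emb.coeffMap_jq]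

/-- the series `j(q^d)`, `d ∣ M`. -/
def jd {M : ℕ} (d : {d : ℕ // d ∈ M.divisors}) : LaurentSeries L :=
  haveI : NeZero d.1 := ⟨(Nat.pos_of_mem_divisors d.2).ne'⟩
  qExpand L d.1 (jqModC L)

theorem FF0_eq_adjoin_jd (M : ℕ) [NeZero M] :
    FF0 L M = adjoin L (Set.range (jd L : {d : ℕ // d ∈ M.divisors} → LaurentSeries L)) := by
  rw [FF0, modularFunctionFieldFull, laurentBaseChange_adjoin]
  congr 1
  ext x
  constructor
  · rintro ⟨_, ⟨d, hne, hd, rfl⟩, rfl⟩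
    refine ⟨⟨d, Nat.mem_divisors.mpr ⟨hd, NeZero.ne M⟩⟩, ?_⟩
    rw [coeffEmb_qExpand_jq]
    rfl
  · rintro ⟨⟨d, hd⟩, rfl⟩
    have : NeZero d := ⟨(Nat.pos_of_mem_divisors hd).ne'⟩
    exact ⟨qExpand ℚ d jq, ⟨d, ‹_›, Nat.dvd_of_mem_divisors hd, rfl⟩, coeffEmb_qExpand_jq L d⟩

variable {N ℓ : ℕ} [NeZero N] [NeZero ℓ]

theorem FF0_eq_adjoin_jser :
    FF0 L (N * ℓ) = adjoin L (Set.range (jser L : Ix N ℓ → LaurentSeries L)) := by
  rw [FF0_eq_adjoin_jd]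
  congr 1
  ext x
  constructor
  · rintro ⟨⟨d, hd⟩, rfl⟩
    obtain ⟨d₁, d₂, h1, h2, rfl⟩ := (Nat.dvd_mul.mp (Nat.dvd_of_mem_divisors hd))
    exact ⟨(⟨d₁, Nat.mem_divisors.mpr ⟨h1, NeZero.ne N⟩⟩,
      ⟨d₂, Nat.mem_divisors.mpr ⟨h2, NeZero.ne ℓ⟩⟩), rfl⟩
  · rintro ⟨⟨⟨d₁, h1⟩, ⟨d₂, h2⟩⟩, rfl⟩
    exact ⟨⟨d₁ * d₂, Nat.mem_divisors.mpr ⟨mul_dvd_mul (Nat.dvd_of_mem_divisors h1)
      (Nat.dvd_of_mem_divisors h2), Nat.mul_ne_zero (NeZero.ne N) (NeZero.ne ℓ)⟩⟩, rfl⟩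

theorem jser_mem (i : Ix N ℓ) : jser L i ∈ FF0 L (N * ℓ) := by
  rw [FF0_eq_adjoin_jser]
  exact subset_adjoin _ _ ⟨i, rfl⟩

omit [NeZero ℓ] in
theorem jd_mem (d : {d : ℕ // d ∈ N.divisors}) : jd L d ∈ FF0 L N := by
  rw [FF0_eq_adjoin_jd]
  exact subset_adjoin _ _ ⟨d, rfl⟩

variable {L}

theorem exists_swap (ι : L →+* ℂ) (hc : Nat.Coprime ℓ N) :
    ∃ w : FF0 L (N * ℓ) →ₐ[L] FF0 L (N * ℓ),
      ∀ i : Ix N ℓ, w ⟨jser L i, jser_mem L i⟩ = ⟨jser L (swapIx i), jser_mem L (swapIx i)⟩ := by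
  have key := exists_algHom_adjoin (L := L) (E' := FF0 L (N * ℓ)) (jser L : Ix N ℓ → LaurentSeries L)
    (fun i => ⟨jser L (swapIx i), jser_mem L (swapIx i)⟩) (fun P => by
      rw [aeval_swap_iff ι hc]
      have h : ((MvPolynomial.aeval (fun i : Ix N ℓ =>
          (⟨jser L (swapIx i), jser_mem L (swapIx i)⟩ : FF0 L (N * ℓ))) P : FF0 L (N * ℓ)) :
            LaurentSeries L) = MvPolynomial.aeval (fun i => jser L (swapIx i)) P := by
        have : ((FF0 L (N * ℓ)).val.comp (MvPolynomial.aeval (fun i : Ix N ℓ =>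
          (⟨jser L (swapIx i), jser_mem L (swapIx i)⟩ : FF0 L (N * ℓ))))) =
            MvPolynomial.aeval (fun i => jser L (swapIx i)) := by
          apply MvPolynomial.algHom_ext
          intro i
          simp
        exact congrArg (fun g : MvPolynomial (Ix N ℓ) L →ₐ[L] LaurentSeries L => g P) this
      rw [← h, ZeroMemClass.coe_eq_zero])
  obtain ⟨w, hw⟩ := key
  refine ⟨w.comp (IntermediateField.equivOfEq (FF0_eq_adjoin_jser L)).toAlgHom, fun i => ?_⟩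
  exact hw i

omit [NeZero N] [NeZero ℓ] [Algebra ℚ L] in
theorem algHom_ext_adjoin {E' : Type*} [Semiring E'] [Algebra L E'] {I : Type*}
    {F : IntermediateField L (LaurentSeries L)} {x : I → LaurentSeries L}
    (hF : F = adjoin L (Set.range x)) (hx : ∀ i, x i ∈ F) {φ ψ : F →ₐ[L] E'}
    (h : ∀ i, φ ⟨x i, hx i⟩ = ψ ⟨x i, hx i⟩) : φ = ψ := by
  refine IntermediateField.algHom_ext_of_eq_adjoin (F := L) (hS := hF) ?_
  rintro _ ⟨i, rfl⟩
  exact h i

theorem algHom_ext_jser {E' : Type*} [Semiring E'] [Algebra L E']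
    {φ ψ : FF0 L (N * ℓ) →ₐ[L] E'}
    (h : ∀ i : Ix N ℓ, φ ⟨jser L i, jser_mem L i⟩ = ψ ⟨jser L i, jser_mem L i⟩) : φ = ψ :=
  algHom_ext_adjoin (FF0_eq_adjoin_jser L) (jser_mem L) h

omit [NeZero ℓ] in
theorem algHom_ext_jd {E' : Type*} [Semiring E'] [Algebra L E']
    {φ ψ : FF0 L N →ₐ[L] E'}
    (h : ∀ d, φ ⟨jd L d, jd_mem L d⟩ = ψ ⟨jd L d, jd_mem L d⟩) : φ = ψ :=
  algHom_ext_adjoin (FF0_eq_adjoin_jd L N) (jd_mem L) h

/-- the swap homomorphism. -/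
def swapHom (ι : L →+* ℂ) (hc : Nat.Coprime ℓ N) : FF0 L (N * ℓ) →ₐ[L] FF0 L (N * ℓ) :=
  (exists_swap ι hc).choose

theorem swapHom_jser (ι : L →+* ℂ) (hc : Nat.Coprime ℓ N) (i : Ix N ℓ) :
    swapHom ι hc ⟨jser L i, jser_mem L i⟩ = ⟨jser L (swapIx i), jser_mem L (swapIx i)⟩ :=
  (exists_swap ι hc).choose_spec i

theorem swapHom_swapHom (ι : L →+* ℂ) (hc : Nat.Coprime ℓ N) (x : FF0 L (N * ℓ)) :
    swapHom ι hc (swapHom ι hc x) = x := by
  have h : (swapHom ι hc).comp (swapHom ι hc) = AlgHom.id L (FF0 L (N * ℓ)) := by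
    apply algHom_ext_jser
    intro i
    rw [AlgHom.comp_apply, swapHom_jser, swapHom_jser]
    apply Subtype.ext
    show jser L (swapIx (swapIx i)) = jser L i
    rw [swapIx_swapIx]
  exact congrArg (fun g : FF0 L (N * ℓ) →ₐ[L] FF0 L (N * ℓ) => g x) h

/-- **The partial Atkin–Lehner automorphism** `w_ℓ` of the function field of `X₀(Nℓ)`. -/
def swapEquiv (ι : L →+* ℂ) (hc : Nat.Coprime ℓ N) : FF0 L (N * ℓ) ≃ₐ[L] FF0 L (N * ℓ) :=
  AlgEquiv.ofAlgHom (swapHom ι hc) (swapHom ι hc)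
    (AlgHom.ext (swapHom_swapHom ι hc)) (AlgHom.ext (swapHom_swapHom ι hc))

@[simp]
theorem swapEquiv_apply (ι : L →+* ℂ) (hc : Nat.Coprime ℓ N) (x : FF0 L (N * ℓ)) :
    swapEquiv ι hc x = swapHom ι hc x := rfl

theorem alpha_jd (d : {d : ℕ // d ∈ N.divisors}) :
    heckeAlphaBar L N ℓ ⟨jd L d, jd_mem L d⟩ =
      ⟨jser L (d, ⟨1, Nat.one_mem_divisors.mpr (NeZero.ne ℓ)⟩), jser_mem L _⟩ := by
  apply Subtype.ext
  rw [coe_heckeAlphaBar]
  show jd L d = jser L _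
  have h1 : NeZero d.1 := ⟨(Nat.pos_of_mem_divisors d.2).ne'⟩
  unfold jd jser
  exact qExpand_congr (by simp) _

theorem beta_jd (d : {d : ℕ // d ∈ N.divisors}) :
    heckeBetaBar L N ℓ ⟨jd L d, jd_mem L d⟩ =
      ⟨jser L (d, ⟨ℓ, Nat.mem_divisors_self ℓ (NeZero.ne ℓ)⟩), jser_mem L _⟩ := by
  apply Subtype.ext
  rw [coe_heckeBetaBar]
  show qExpand L ℓ (jd L d) = jser L _
  have h1 : NeZero d.1 := ⟨(Nat.pos_of_mem_divisors d.2).ne'⟩
  have h2 : NeZero (ℓ * d.1) := ⟨Nat.mul_ne_zero (NeZero.ne ℓ) h1.out⟩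
  unfold jd jser
  rw [qExpand_qExpand]
  exact qExpand_congr (by simp [mul_comm]) _

theorem swapHom_alpha (ι : L →+* ℂ) (hc : Nat.Coprime ℓ N) (f : FF0 L N) :
    swapHom ι hc (heckeAlphaBar L N ℓ f) = heckeBetaBar L N ℓ f := by
  have h : (swapHom ι hc).comp (heckeAlphaBar L N ℓ) = heckeBetaBar L N ℓ := by
    apply algHom_ext_jd
    intro d
    rw [AlgHom.comp_apply, alpha_jd, beta_jd, swapHom_jser]
    apply Subtype.ext
    show jser L (swapIx _) = jser L _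
    congr 1
    refine Prod.ext rfl (Subtype.ext ?_)
    show ℓ / 1 = ℓ
    exact Nat.div_one ℓ
  exact congrArg (fun g : FF0 L N →ₐ[L] FF0 L (N * ℓ) => g f) h

theorem swapHom_beta (ι : L →+* ℂ) (hc : Nat.Coprime ℓ N) (f : FF0 L N) :
    swapHom ι hc (heckeBetaBar L N ℓ f) = heckeAlphaBar L N ℓ f := by
  rw [← swapHom_alpha ι hc, swapHom_swapHom]

/-- **`HasSwap` holds** for `ℓ` coprime to `N`. -/
theorem hasSwap (ι : L →+* ℂ) (hc : Nat.Coprime ℓ N) : HasSwap L N ℓ := by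
  refine ⟨((FF0 L (N * ℓ)).val.comp (swapHom ι hc)).toRingHom, fun f => ?_, fun f => ?_⟩
  · show ((swapHom ι hc (heckeAlphaBar L N ℓ f) : FF0 L (N * ℓ)) : LaurentSeries L) = _
    rw [swapHom_alpha, coe_heckeBetaBar]
  · show ((swapHom ι hc (heckeBetaBar L N ℓ f) : FF0 L (N * ℓ)) : LaurentSeries L) = _
    rw [swapHom_beta, coe_heckeAlphaBar]

omit [Algebra ℚ L] [NeZero N] [NeZero ℓ] in
theorem coeffMap_jser_self (σ : L →+* L) (i : Ix N ℓ) : coeffMap σ (jser L i) = jser L i := by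
  unfold jser
  rw [ModularCurve.coeffMap_qExpand, coeffMap_jqModC]

/-- the Atkin–Lehner automorphism commutes with the arithmetic Galois action. -/
theorem swapHom_arithmetic (ι : L →+* ℂ) (hc : Nat.Coprime ℓ N) (σ : L ≃ₐ[ℚ] L)
    (x : FF0 L (N * ℓ)) :
    swapHom ι hc (arithmeticRingAut (modularFunctionFieldFull (N * ℓ)) σ x) =
      arithmeticRingAut (modularFunctionFieldFull (N * ℓ)) σ (swapHom ι hc x) := by
  let a := arithmeticRingAut (modularFunctionFieldFull (N * ℓ)) σ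
  let w' : FF0 L (N * ℓ) →ₐ[L] FF0 L (N * ℓ) :=
    { toRingHom := (a.symm : FF0 L (N * ℓ) →+* FF0 L (N * ℓ)).comp
        (((swapHom ι hc : FF0 L (N * ℓ) →ₐ[L] FF0 L (N * ℓ)) :
          FF0 L (N * ℓ) →+* FF0 L (N * ℓ)).comp (a : FF0 L (N * ℓ) →+* FF0 L (N * ℓ)))
      commutes' := fun c => by
        show a.symm (swapHom ι hc (a (algebraMap L _ c))) = algebraMap L _ c
        rw [arithmeticRingAut_algebraMap, AlgHom.commutes, RingEquiv.symm_apply_eq,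
          arithmeticRingAut_algebraMap] }
  have hj : ∀ i : Ix N ℓ, a ⟨jser L i, jser_mem L i⟩ = ⟨jser L i, jser_mem L i⟩ := fun i =>
    Subtype.ext (coeffMap_jser_self (σ : L →+* L) i)
  have h : w' = swapHom ι hc := by
    apply algHom_ext_jser
    intro i
    show a.symm (swapHom ι hc (a ⟨jser L i, jser_mem L i⟩)) = _
    rw [hj, swapHom_jser, RingEquiv.symm_apply_eq, hj]
  have h2 : w' x = swapHom ι hc x := by rw [h]
  have h3 : a.symm (swapHom ι hc (a x)) = swapHom ι hc x := h2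
  rw [RingEquiv.symm_apply_eq] at h3
  exact h3

end Gen

end Fermat.Agent.TEll
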