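import Mathlib
import Fermat.Prelude.Def_ModularCurve_HeckeOperatorTotal
import Fermat.Agent.X0Emb.Embed
import Fermat.Agent.X0Emb.EmbData
import Fermat.Agent.FF.Along
import Fermat.Agent.P1Count.Index
import Fermat.Agent.TEll.SwapEquiv
import Fermat.Agent.TEll.FinrankAlong

/-! The Hecke correspondences on `X₀(N)`: finiteness, degree `ℓ + 1`, `HeckeInputsAlong`
(helper88). -/

set_option autoImplicit false

noncomputable section

open HahnSeries ModularCurve AlgebraicCurve IntermediateField Fermat.Agent.X0Emb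
open scoped MatrixGroups

namespace Fermat.Agent.TEll

theorem transcendental_jF0 (N : ℕ) [NeZero N] : Transcendental (AlgebraicClosure ℚ) (jF N) :=
  (embData N).transcendental_jF

instance instFiniteXX (N : ℕ) [NeZero N] : Finite (XX N) :=
  inferInstanceAs (Finite (SL(2, ℤ) ⧸ CongruenceSubgroup.Gamma0 N))

/-- **The degree of `X₀(N)` over the `j`-line.** -/
theorem finrank_jF0 (N : ℕ) [NeZero N] :
    Module.finrank (AlgebraicClosure ℚ)⟮jF N⟯ (modularFunctionFieldBar N) = dedekindPsi N := by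
  have := Fintype.ofFinite (SL(2, ℤ) ⧸ CongruenceSubgroup.Gamma0 N)
  rw [← P1Count.card_coset]
  exact (embData N).finrank_eq

theorem finiteDimensional_jF0 (N : ℕ) [NeZero N] :
    FiniteDimensional (AlgebraicClosure ℚ)⟮jF N⟯ (modularFunctionFieldBar N) := by
  have := Fintype.ofFinite (SL(2, ℤ) ⧸ CongruenceSubgroup.Gamma0 N)
  exact (embData N).upper.1

instance isFF_bar (N : ℕ) [NeZero N] :
    Fermat.Agent.FF.IsFF (AlgebraicClosure ℚ) (modularFunctionFieldBar N) := by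
  have := finiteDimensional_jF0 N
  exact Fermat.Agent.FF.IsFF.of_finite (transcendental_jF0 N)

theorem alpha_jF0 (N ℓ : ℕ) [NeZero N] [NeZero ℓ] :
    heckeAlphaBar (AlgebraicClosure ℚ) N ℓ (jF N) = jF (N * ℓ) := by
  apply Subtype.ext
  rw [coe_heckeAlphaBar]
  exact (coe_jF N).trans (coe_jF (N * ℓ)).symm

theorem dedekindPsi_pos (N : ℕ) [NeZero N] : 0 < dedekindPsi N := by
  rw [← P1Count.card_coset]
  exact Nat.card_pos

/-- **The degree of the Hecke correspondence.** -/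
theorem dedekindPsi_mul_finrankAlong (N ℓ : ℕ) [NeZero N] [NeZero ℓ] :
    dedekindPsi N * finrankAlong (AlgebraicClosure ℚ) (heckeAlphaBar (AlgebraicClosure ℚ) N ℓ) =
      dedekindPsi (N * ℓ) := by
  have h := finrank_mul_finrankAlong (heckeAlphaBar (AlgebraicClosure ℚ) N ℓ) (jF N)
  rw [alpha_jF0] at h
  exact ((congrArg (· * _) (finrank_jF0 N)).symm.trans h).trans (finrank_jF0 (N * ℓ))

theorem finrankAlong_alpha (N ℓ : ℕ) [NeZero N] [NeZero ℓ] (hℓ : ℓ.Prime) (h : ¬ ℓ ∣ N) :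
    finrankAlong (AlgebraicClosure ℚ) (heckeAlphaBar (AlgebraicClosure ℚ) N ℓ) = ℓ + 1 := by
  have h1 := dedekindPsi_mul_finrankAlong N ℓ
  rw [P1Count.dedekindPsi_mul N ℓ ((Nat.Prime.coprime_iff_not_dvd hℓ).mpr h).symm] at h1
  have h2 := P1Count.dedekindPsi_primePow ℓ 0 hℓ
  rw [zero_add, pow_one, pow_zero] at h2
  rw [h2] at h1
  exact Nat.eq_of_mul_eq_mul_left (dedekindPsi_pos N) h1

/-- **The inputs of the Hecke operators hold**, for every `N` and `ℓ`. -/
theorem heckeInputsAlong (N ℓ : ℕ) [NeZero N] [NeZero ℓ] :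
    HeckeInputsAlong (AlgebraicClosure ℚ) N ℓ :=
  ⟨Fermat.Agent.FF.isIntegralAlong _, Fermat.Agent.FF.isIntegralAlong _, inferInstance,
    Fermat.Agent.FF.finiteAlong _, Fermat.Agent.FF.fundamentalIdentityAlong _ _,
    Fermat.Agent.FF.normFormulaAlong _ _⟩

theorem hasSwap_bar (N ℓ : ℕ) [NeZero N] [NeZero ℓ] (hc : Nat.Coprime ℓ N) :
    HasSwap (AlgebraicClosure ℚ) N ℓ :=
  hasSwap iota hc

/-- **The `q`-expansion of `T_ℓ f`**, unconditionally, for `ℓ ∤ N`. -/
theorem coe_TEll_bar (N ℓ : ℕ) [NeZero N] [NeZero ℓ] (hℓ : ℓ.Prime) (h : ¬ ℓ ∣ N)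
    (f : FF0 (AlgebraicClosure ℚ) N) :
    (TEll (AlgebraicClosure ℚ) N ℓ f : LaurentSeries (AlgebraicClosure ℚ)) =
      TSer (AlgebraicClosure ℚ) ℓ (f : LaurentSeries (AlgebraicClosure ℚ)) :=
  coe_TEll_eq_TSer hℓ (hasSwap_bar N ℓ ((Nat.Prime.coprime_iff_not_dvd hℓ).mpr h))
    (finrankAlong_alpha N ℓ hℓ h) f

end Fermat.Agent.TEll
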