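import Mathlib
import Fermat.Prelude.Def_ModularCurve_HeckeModule
import Fermat.Agent.Deuring.DivLemmas
import Fermat.Agent.TEll.Inputs

/-! The Hecke correspondence on divisors of `X₀(N)` over `ℚ̄` (helper88). -/

set_option autoImplicit false

noncomputable section

open HahnSeries ModularCurve AlgebraicCurve Fermat.Agent.RR

namespace Fermat.Agent.TEll

section

variable (N ℓ : ℕ) [NeZero N] [NeZero ℓ]

theorem intAlpha : HeckeAlphaBarIntegral (AlgebraicClosure ℚ) N ℓ :=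
  Fermat.Agent.FF.isIntegralAlong _

theorem intBeta : HeckeBetaBarIntegral (AlgebraicClosure ℚ) N ℓ :=
  Fermat.Agent.FF.isIntegralAlong _

theorem fiBeta : FundamentalIdentityAlong (AlgebraicClosure ℚ)
    (heckeBetaBar (AlgebraicClosure ℚ) N ℓ) (intBeta N ℓ) :=
  Fermat.Agent.FF.fundamentalIdentityAlong _ _

theorem finAlpha : FiniteAlong (AlgebraicClosure ℚ) (heckeAlphaBar (AlgebraicClosure ℚ) N ℓ) :=
  Fermat.Agent.FF.finiteAlong _

theorem nfAlpha : NormFormulaAlong (AlgebraicClosure ℚ)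
    (heckeAlphaBar (AlgebraicClosure ℚ) N ℓ) (finAlpha N ℓ) :=
  Fermat.Agent.FF.normFormulaAlong _ _

/-- The Hecke correspondence on divisors. -/
def heckeDiv : Divisor (AlgebraicClosure ℚ) (modularFunctionFieldBar N) →+
    Divisor (AlgebraicClosure ℚ) (modularFunctionFieldBar N) :=
  heckeDivBar (intAlpha N ℓ) (intBeta N ℓ)

variable {N ℓ}

theorem pushforwardAlong_nonneg {K F F' : Type*} [Field K] [Field F] [Field F'] [Algebra K F]
    [Algebra K F'] (φ : F →ₐ[K] F') (hφ : φ.toRingHom.IsIntegral) {D : Divisor K F'}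
    (hD : 0 ≤ D) : 0 ≤ Divisor.pushforwardAlong φ hφ D := by
  have h1 : Divisor.pushforwardAlong φ hφ D =
      D.sum fun w n => Finsupp.single (w.restrictAlong φ hφ) (n * w.inertiaDegAlong φ hφ) := by
    conv_lhs => rw [← Finsupp.sum_single D]
    rw [Finsupp.sum, map_sum, Finsupp.sum]
    exact Finset.sum_congr rfl fun w _ => Divisor.pushforwardAlong_single φ hφ w (D w)
  rw [h1, Finsupp.sum]
  refine Finset.sum_nonneg fun w _ => ?_
  exact Finsupp.single_nonneg.mpr (mul_nonneg (hD w) (Int.natCast_nonneg _))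

theorem heckeDiv_nonneg {D : Divisor (AlgebraicClosure ℚ) (modularFunctionFieldBar N)}
    (hD : 0 ≤ D) : 0 ≤ heckeDiv N ℓ D :=
  pushforwardAlong_nonneg _ (intAlpha N ℓ) (Deuring.pullbackAlong_nonneg _ _ hD)

theorem degree_heckeDiv (D : Divisor (AlgebraicClosure ℚ) (modularFunctionFieldBar N)) :
    Divisor.degree (heckeDiv N ℓ D) =
      (finrankAlong (AlgebraicClosure ℚ) (heckeBetaBar (AlgebraicClosure ℚ) N ℓ) : ℤ) *
        Divisor.degree D :=
  Divisor.degree_correspondence _ _ (intBeta N ℓ) (intAlpha N ℓ) (fiBeta N ℓ) D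

theorem heckeDiv_div {f : modularFunctionFieldBar N} (hf : f ≠ 0) :
    heckeDiv N ℓ (div f) = div (TEll (AlgebraicClosure ℚ) N ℓ f) := by
  ext v
  rw [div_apply]
  exact heckeDivBar_eq_ord_TEll (intAlpha N ℓ) (intBeta N ℓ) (finAlpha N ℓ) (nfAlpha N ℓ) hf
    (fun v => div_apply f v) v

theorem heckeOperatorAlong_mk
    (D : Divisor.degZero (K := AlgebraicClosure ℚ) (F := modularFunctionFieldBar N)) :
    ∃ D' : Divisor.degZero (K := AlgebraicClosure ℚ) (F := modularFunctionFieldBar N),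
      (D' : Divisor (AlgebraicClosure ℚ) (modularFunctionFieldBar N)) = heckeDiv N ℓ D ∧
        heckeOperatorAlong (AlgebraicClosure ℚ) N ℓ (Pic0.mk D) = Pic0.mk D' := by
  have h1 := heckeOperatorAlong_eq (L := AlgebraicClosure ℚ) (intAlpha N ℓ) (intBeta N ℓ)
    (fiBeta N ℓ) (finAlpha N ℓ) (nfAlpha N ℓ)
  refine ⟨Pic0.degZeroCorrespondence (heckeBetaBar (AlgebraicClosure ℚ) N ℓ)
    (heckeAlphaBar (AlgebraicClosure ℚ) N ℓ) (intBeta N ℓ) (intAlpha N ℓ) (fiBeta N ℓ) D,
    rfl, ?_⟩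
  rw [h1]
  exact Pic0.correspondence_mk _ _ _ _ _ _ _ D

end

section Bar

variable {N : ℕ} [NeZero N]

theorem heckeOperatorBar_mk (ℓ : Nat.Primes)
    (D : Divisor.degZero (K := AlgebraicClosure ℚ) (F := modularFunctionFieldBar N)) :
    haveI : NeZero (ℓ : ℕ) := ⟨ℓ.2.ne_zero⟩
    ∃ D' : Divisor.degZero (K := AlgebraicClosure ℚ) (F := modularFunctionFieldBar N),
      (D' : Divisor (AlgebraicClosure ℚ) (modularFunctionFieldBar N)) = heckeDiv N ℓ D ∧
        heckeOperatorBar N ℓ (Pic0.mk D) = Pic0.mk D' := by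
  have : NeZero (ℓ : ℕ) := ⟨ℓ.2.ne_zero⟩
  exact heckeOperatorAlong_mk D

end Bar

end Fermat.Agent.TEll
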