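import Mathlib
import Fermat.Agent.GaussVal.Data
import Fermat.Agent.TEll.Basic

/-! The Eichler–Shimura congruence for functions: `T_ℓ` and Gauss reduction (helper88). -/

set_option autoImplicit false

noncomputable section

open HahnSeries ModularCurve Fermat.Agent.GaussVal

namespace Fermat.Agent.TEll

section NeZero

variable {k : Type*} [Field k] (ℓ : ℕ) [NeZero ℓ]

theorem secNorm_ne_zero {y : LaurentSeries k} (hy : y ≠ 0) : secNorm k ℓ y ≠ 0 := by
  rw [secNorm_apply]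
  have h : toCov k ℓ y ≠ 0 := (map_ne_zero_iff _ (toCov k ℓ).injective).mpr hy
  exact Algebra.norm_ne_zero_iff.mpr h

theorem TSer_ne_zero {y : LaurentSeries k} (hy : y ≠ 0) : TSer k ℓ y ≠ 0 := by
  rw [TSer_apply]
  exact mul_ne_zero ((map_ne_zero_iff _ (qExpand_injective ℓ)).mpr hy) (secNorm_ne_zero ℓ hy)

end NeZero

section Gauss

variable {K : Type*} [Field K] (A : ValuationSubring K) (ℓ : ℕ) [NeZero ℓ]

theorem TSer_incl (Y : LaurentSeries A) : TSer K ℓ (incl A Y) = incl A (TSer A ℓ Y) :=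
  (coeffMap_TSer ℓ A.subtype Y).symm

theorem TSer_redS (Y : LaurentSeries A) :
    TSer (IsLocalRing.ResidueField A) ℓ (redS A Y) = redS A (TSer A ℓ Y) :=
  (coeffMap_TSer ℓ (IsLocalRing.residue A) Y).symm

theorem redS_TSer_ne_zero {Y : LaurentSeries A} (hY : redS A Y ≠ 0) :
    redS A (TSer A ℓ Y) ≠ 0 := by
  rw [← TSer_redS]
  exact TSer_ne_zero ℓ hY

theorem TSer_rel {y : LaurentSeries K} {Y₁ Y₂ : LaurentSeries A}
    (h : y * incl A Y₂ = incl A Y₁) :
    TSer K ℓ y * incl A (TSer A ℓ Y₂) = incl A (TSer A ℓ Y₁) := by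
  rw [← TSer_incl, ← TSer_incl, ← map_mul, h]

theorem TSer_mem_gaussSubring {y : LaurentSeries K} (hy : y ∈ gaussSubring A) :
    TSer K ℓ y ∈ gaussSubring A := by
  obtain ⟨Y₁, Y₂, hY, h⟩ := hy
  exact ⟨TSer A ℓ Y₁, TSer A ℓ Y₂, redS_TSer_ne_zero A ℓ hY, TSer_rel A ℓ h⟩

/-- Gauss reduction commutes with `T_ℓ`. -/
theorem gaussRed_TSer (y : gaussSubring A) :
    gaussRed A ⟨TSer K ℓ (y : LaurentSeries K), TSer_mem_gaussSubring A ℓ y.2⟩ =
      TSer (IsLocalRing.ResidueField A) ℓ (gaussRed A y) := by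
  obtain ⟨Y₁, Y₂, hY, h⟩ := mem_gaussSubring.mp y.2
  have h1 := gaussRed_eq (y := ⟨TSer K ℓ (y : LaurentSeries K), TSer_mem_gaussSubring A ℓ y.2⟩)
    (redS_TSer_ne_zero A ℓ hY) (TSer_rel A ℓ h)
  have h2 := gaussRed_eq (y := y) hY h
  have h3 : gaussRed A y * redS A Y₂ = redS A Y₁ := by
    rw [h2, div_mul_cancel₀ _ hY]
  rw [h1, div_eq_iff (redS_TSer_ne_zero A ℓ hY), ← TSer_redS, ← TSer_redS, ← map_mul, h3]

theorem qExpand_rel {y : LaurentSeries K} {Y₁ Y₂ : LaurentSeries A}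
    (h : y * incl A Y₂ = incl A Y₁) :
    qExpand K ℓ y * incl A (qExpand A ℓ Y₂) = incl A (qExpand A ℓ Y₁) := by
  rw [incl, ModularCurve.coeffMap_qExpand, ModularCurve.coeffMap_qExpand, ← map_mul, h]

theorem redS_qExpand (Y : LaurentSeries A) :
    redS A (qExpand A ℓ Y) = qExpand (IsLocalRing.ResidueField A) ℓ (redS A Y) :=
  ModularCurve.coeffMap_qExpand _ _ _

theorem redS_qExpand_ne_zero {Y : LaurentSeries A} (hY : redS A Y ≠ 0) :
    redS A (qExpand A ℓ Y) ≠ 0 := by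
  rw [redS_qExpand]
  exact (map_ne_zero_iff _ (qExpand_injective ℓ)).mpr hY

theorem qExpand_mem_gaussSubring {y : LaurentSeries K} (hy : y ∈ gaussSubring A) :
    qExpand K ℓ y ∈ gaussSubring A := by
  obtain ⟨Y₁, Y₂, hY, h⟩ := hy
  exact ⟨qExpand A ℓ Y₁, qExpand A ℓ Y₂, redS_qExpand_ne_zero A ℓ hY, qExpand_rel A ℓ h⟩

/-- Gauss reduction commutes with `q ↦ q ^ ℓ`. -/
theorem gaussRed_qExpand (y : gaussSubring A) :
    gaussRed A ⟨qExpand K ℓ (y : LaurentSeries K), qExpand_mem_gaussSubring A ℓ y.2⟩ =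
      qExpand (IsLocalRing.ResidueField A) ℓ (gaussRed A y) := by
  obtain ⟨Y₁, Y₂, hY, h⟩ := mem_gaussSubring.mp y.2
  have h1 := gaussRed_eq (y := ⟨qExpand K ℓ (y : LaurentSeries K),
    qExpand_mem_gaussSubring A ℓ y.2⟩) (redS_qExpand_ne_zero A ℓ hY) (qExpand_rel A ℓ h)
  have h2 := gaussRed_eq (y := y) hY h
  have h3 : gaussRed A y * redS A Y₂ = redS A Y₁ := by
    rw [h2, div_mul_cancel₀ _ hY]
  rw [h1, div_eq_iff (redS_qExpand_ne_zero A ℓ hY), redS_qExpand, redS_qExpand, ← map_mul, h3]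

end Gauss

section Frob

variable {K : Type*} [Field K] (A : ValuationSubring K) (ℓ : ℕ) [hℓ : Fact ℓ.Prime]

theorem charP_residueField (hA : A.LiesOverPrime ℓ) : CharP (IsLocalRing.ResidueField A) ℓ := by
  have h : ((ℓ : ℕ) : IsLocalRing.ResidueField A) = 0 := by
    have h1 : ((ℓ : ℕ) : IsLocalRing.ResidueField A) = IsLocalRing.residue A (ℓ : A) := by
      rw [map_natCast]
    rw [h1, IsLocalRing.residue_eq_zero_iff, A.valuation_lt_one_iff]
    have h2 : ((ℓ : A) : K) = (ℓ : K) := by norm_cast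
    rw [h2]
    exact hA
  obtain ⟨p, hp⟩ := CharP.exists (IsLocalRing.ResidueField A)
  have h1 : p ∣ ℓ := (CharP.cast_eq_zero_iff _ p ℓ).mp h
  rcases (Nat.dvd_prime hℓ.out).mp h1 with h2 | h2
  · exact absurd h2 (CharP.char_ne_one (IsLocalRing.ResidueField A) p)
  · rwa [← h2]

/-- **The Eichler–Shimura congruence on functions.** -/
theorem gaussRed_TSer_eq [CharP (IsLocalRing.ResidueField A) ℓ] (y : gaussSubring A) :
    gaussRed A ⟨TSer K ℓ (y : LaurentSeries K), TSer_mem_gaussSubring A ℓ y.2⟩ =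
      qExpand (IsLocalRing.ResidueField A) ℓ (gaussRed A y) *
        coeffMap (frobenius (IsLocalRing.ResidueField A) ℓ) (gaussRed A y) := by
  rw [gaussRed_TSer, TSer_charP]

end Frob

end Fermat.Agent.TEll
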