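import Mathlib
import Fermat.Agent.TEll.Gauss
import Fermat.Agent.TEll.HeckeDiv
import Fermat.Agent.FF.AlgClosed

/-! The Hecke side of the Eichler–Shimura relation, packaged (helper88). -/

set_option autoImplicit false

noncomputable section

open HahnSeries ModularCurve AlgebraicCurve

namespace Fermat.Agent.TEll

/-- **(ES)** Eichler–Shimura congruence on functions. -/
theorem exists_gaussRed_TSer {K : Type*} [Field K] (A : ValuationSubring K) (ℓ : ℕ)
    [Fact ℓ.Prime] [CharP (IsLocalRing.ResidueField A) ℓ] (y : GaussVal.gaussSubring A) :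
    ∃ h : TSer K ℓ (y : LaurentSeries K) ∈ GaussVal.gaussSubring A,
      GaussVal.gaussRed A ⟨_, h⟩ =
        qExpand (IsLocalRing.ResidueField A) ℓ (GaussVal.gaussRed A y) *
          coeffMap (frobenius (IsLocalRing.ResidueField A) ℓ) (GaussVal.gaussRed A y) :=
  ⟨TSer_mem_gaussSubring A ℓ y.2, gaussRed_TSer_eq A ℓ y⟩

/-- **(TS)** the Hecke operator on divisors. -/
theorem hecke_side (N ℓ : ℕ) [NeZero N] (hℓ : ℓ.Prime) [NeZero ℓ] :
    ∃ (T : Divisor (AlgebraicClosure ℚ) (modularFunctionFieldBar N) →+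
        Divisor (AlgebraicClosure ℚ) (modularFunctionFieldBar N)) (d : ℤ),
      (∀ v, 0 ≤ T (Finsupp.single v 1)) ∧
      (∀ v, Divisor.degree (T (Finsupp.single v 1)) ≤ d) ∧
      (∀ f, f ≠ 0 → T (RR.div f) = RR.div (TEll (AlgebraicClosure ℚ) N ℓ f)) ∧
      ∀ D : Divisor.degZero (K := AlgebraicClosure ℚ) (F := modularFunctionFieldBar N),
        ∃ D' : Divisor.degZero (K := AlgebraicClosure ℚ) (F := modularFunctionFieldBar N),
          (D' : Divisor (AlgebraicClosure ℚ) (modularFunctionFieldBar N)) = T D ∧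
            heckeOperatorBar N ⟨ℓ, hℓ⟩ (Pic0.mk D) = Pic0.mk D' := by
  refine ⟨heckeDiv N ℓ, finrankAlong (AlgebraicClosure ℚ) (heckeBetaBar (AlgebraicClosure ℚ) N ℓ),
    fun v => heckeDiv_nonneg (Deuring.single_nonneg v), fun v => ?_,
    fun f hf => heckeDiv_div hf, fun D => heckeOperatorBar_mk ⟨ℓ, hℓ⟩ D⟩
  rw [degree_heckeDiv, Divisor.degree_single, one_mul]
  have h : v.deg = 1 := Fermat.Agent.FF.deg_eq_one v
  rw [h, Nat.cast_one, mul_one]

end Fermat.Agent.TEll
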